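import Mathlib
import Fermat.Agent.LT.T6.H626.AbelCut
import Fermat.Agent.LT.T6.H626.FamAlg

/-!
# Row LT, tower T6, station T6.20a, leaf T6.20a.3 `F0SmoothOfC626` (helper290)

OFF-MAIN.  The closed form of weight `0`, `abelF0_626 c φ`, is smooth along every smooth family:
`det (g h(t))` has a constant sign on `ℝ^m`; where it is positive, the integrand
`G(v, t) = φ(M_v(g h(t))) / x_v` is smooth on `ℝ^{m+1}` (`FamSmoothC626`, `IsArchTestC.smooth`) and
vanishes for `|v| > √2 |R|`, `R` a bound of `rhoC` on the support of `φ` (`famAlg626`); then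
`ParamIntC626`.

Frozen bytes: `LT/T6/H626/AbelCut.lean` (helper626@f2abbd58e, sha256 6a4d529b), `FamAlg.lean`
(sha256 9c407f7e).
-/

set_option autoImplicit false

open scoped Matrix ContDiff
open MeasureTheory

noncomputable section

namespace Fermat.Agent.LT.T6.H290

open Fermat.Agent.LT.T6 Fermat.Agent.LT.T6.H626

/-- `rhoC` is continuous on `GL₂(ℂ)`. -/
theorem continuous_rhoC290 : Continuous rhoC := by
  unfold rhoC
  have hval : Continuous fun y : GL (Fin 2) ℂ => (y : Matrix (Fin 2) (Fin 2) ℂ) :=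
    Units.continuous_val
  refine Continuous.div ?_ ?_ ?_
  · exact Complex.continuous_re.comp ((hval.matrix_conjTranspose.matrix_mul hval).matrix_trace)
  · exact continuous_const.mul (continuous_norm.comp hval.matrix_det)
  · intro y
    have h : (y : Matrix (Fin 2) (Fin 2) ℂ).det ≠ 0 := by
      have := (Matrix.GeneralLinearGroup.det y).ne_zero
      simpa using this
    have : 0 < ‖(y : Matrix (Fin 2) (Fin 2) ℂ).det‖ := norm_pos_iff.2 h
    positivity

/-- `rhoC` is bounded on the support of a compactly supported function. -/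
theorem exists_rhoC_le290 {φ : GL (Fin 2) ℂ → ℂ} (hφ : HasCompactSupport φ) :
    ∃ R : ℝ, ∀ y : GL (Fin 2) ℂ, φ y ≠ 0 → rhoC y ≤ R := by
  obtain ⟨R, hR⟩ := (hφ.isCompact.image continuous_rhoC290).bddAbove
  exact ⟨R, fun y hy => hR ⟨y, subset_tsupport _ hy, rfl⟩⟩

/-- The sign of a continuous nowhere vanishing function on `ℝ^m` is constant. -/
theorem pos_of_pos_zero290 {m : ℕ} {d : (Fin m → ℝ) → ℝ} (hc : Continuous d)
    (h0 : ∀ t, d t ≠ 0) (hp : 0 < d 0) (t : Fin m → ℝ) : 0 < d t := by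
  by_contra hn
  have hlt : d t < 0 := lt_of_le_of_ne (not_lt.1 hn) (h0 t)
  have := intermediate_value_univ t 0 hc (show (0 : ℝ) ∈ Set.Icc (d t) (d 0) from ⟨hlt.le, hp.le⟩)
  obtain ⟨s, hs⟩ := this
  exact h0 s hs

theorem neg_of_not_pos_zero290 {m : ℕ} {d : (Fin m → ℝ) → ℝ} (hc : Continuous d)
    (h0 : ∀ t, d t ≠ 0) (hp : ¬ 0 < d 0) (t : Fin m → ℝ) : ¬ 0 < d t := by
  intro ht
  have hlt : d 0 < 0 := lt_of_le_of_ne (not_lt.1 hp) (h0 0)
  have := intermediate_value_univ 0 t hc (show (0 : ℝ) ∈ Set.Icc (d 0) (d t) from ⟨hlt.le, ht.le⟩)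
  obtain ⟨s, hs⟩ := this
  exact h0 s hs

/-- The entries of `t ↦ g * h t` are smooth. -/
theorem contDiff_mul_entries290 {m : ℕ} (g : GL (Fin 2) ℝ) (h : (Fin m → ℝ) → GL (Fin 2) ℝ)
    (hh : ∀ i j : Fin 2,
      ContDiff ℝ ∞ (fun t => ((h t : GL (Fin 2) ℝ) : Matrix (Fin 2) (Fin 2) ℝ) i j))
    (i j : Fin 2) :
    ContDiff ℝ ∞ (fun t => ((g * h t : GL (Fin 2) ℝ) : Matrix (Fin 2) (Fin 2) ℝ) i j) := by
  have : (fun t => ((g * h t : GL (Fin 2) ℝ) : Matrix (Fin 2) (Fin 2) ℝ) i j)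
      = fun t =>
        (g : Matrix (Fin 2) (Fin 2) ℝ) i 0 *
            ((h t : GL (Fin 2) ℝ) : Matrix (Fin 2) (Fin 2) ℝ) 0 j
          + (g : Matrix (Fin 2) (Fin 2) ℝ) i 1 *
            ((h t : GL (Fin 2) ℝ) : Matrix (Fin 2) (Fin 2) ℝ) 1 j := by
    funext t
    simp [Matrix.mul_apply, Fin.sum_univ_two]
  rw [this]
  exact (contDiff_const.mul (hh 0 j)).add (contDiff_const.mul (hh 1 j))

/-- The determinant of a smooth family of `2 × 2` matrices is smooth. -/
theorem contDiff_det290 {m : ℕ} {Y : (Fin m → ℝ) → Matrix (Fin 2) (Fin 2) ℝ}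
    (hY : ∀ i j : Fin 2, ContDiff ℝ ∞ (fun t => Y t i j)) :
    ContDiff ℝ ∞ (fun t => (Y t).det) := by
  have : (fun t => (Y t).det) = fun t => Y t 0 0 * Y t 1 1 - Y t 0 1 * Y t 1 0 := by
    funext t
    rw [Matrix.det_fin_two]
  rw [this]
  exact ((hY 0 0).mul (hY 1 1)).sub ((hY 0 1).mul (hY 1 0))

/-- `ρ` of a smooth family of matrices of positive determinant is smooth. -/
theorem contDiff_rhoM290 {m : ℕ} {Y : (Fin m → ℝ) → Matrix (Fin 2) (Fin 2) ℝ}
    (hY : ∀ i j : Fin 2, ContDiff ℝ ∞ (fun t => Y t i j)) (hpos : ∀ t, 0 < (Y t).det) :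
    ContDiff ℝ ∞ (fun t => rhoM626 (Y t)) := by
  have : (fun t => rhoM626 (Y t))
      = fun t => (Y t 0 0 ^ 2 + Y t 0 1 ^ 2 + Y t 1 0 ^ 2 + Y t 1 1 ^ 2) / (2 * (Y t).det) := by
    funext t
    unfold rhoM626
    rw [abs_of_pos (hpos t)]
    congr 1
    simp [Matrix.trace, Matrix.mul_apply, Fin.sum_univ_two]
    ring
  rw [this]
  refine ContDiff.div ?_ (contDiff_const.mul (contDiff_det290 hY)) fun t => ?_
  · exact ((((hY 0 0).pow 2).add ((hY 0 1).pow 2)).add ((hY 1 0).pow 2)).add ((hY 1 1).pow 2)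
  · have := hpos t
    positivity

/-- `(v, t) ↦ x_v(ρ(Y t))` is smooth. -/
theorem contDiff_xv290 {m : ℕ} {Y : (Fin m → ℝ) → Matrix (Fin 2) (Fin 2) ℝ}
    (hY : ∀ i j : Fin 2, ContDiff ℝ ∞ (fun t => Y t i j)) (hpos : ∀ t, 0 < (Y t).det) :
    ContDiff ℝ ∞ (fun p : Fin (m + 1) → ℝ => xv626 (rhoM626 (Y (Fin.tail p))) (p 0)) := by
  unfold xv626
  have htail : ContDiff ℝ ∞ (fun p : Fin (m + 1) → ℝ => (Fin.tail p : Fin m → ℝ)) := by
    refine contDiff_pi.2 fun i => ?_
    exact contDiff_apply ℝ ℝ (Fin.succ i)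
  have h0 : ContDiff ℝ ∞ (fun p : Fin (m + 1) → ℝ => p 0) := contDiff_apply ℝ ℝ (0 : Fin (m + 1))
  have hρ : ContDiff ℝ ∞ (fun p : Fin (m + 1) → ℝ => rhoM626 (Y (Fin.tail p))) :=
    (contDiff_rhoM290 hY hpos).comp htail
  refine ContDiff.sqrt (((hρ.add contDiff_const).add (h0.pow 2)).div_const 2) fun p => ?_
  have h1 := one_le_rhoM626 (Y (Fin.tail p)) (hpos _)
  have h2 : 0 ≤ (p 0) ^ 2 := sq_nonneg _
  have : 0 < (rhoM626 (Y (Fin.tail p)) + 1 + p 0 ^ 2) / 2 := by linarith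
  exact this.ne'

/-- **T6.20a.3** `F0SmoothOfC626`. -/
theorem f0SmoothOfC290 : F0SmoothOfC626 := by
  intro hFam hPar c φ hφ m h hh g
  set Y : (Fin m → ℝ) → Matrix (Fin 2) (Fin 2) ℝ :=
    fun t => ((g * h t : GL (Fin 2) ℝ) : Matrix (Fin 2) (Fin 2) ℝ) with hYdef
  have hY : ∀ i j : Fin 2, ContDiff ℝ ∞ (fun t => Y t i j) := contDiff_mul_entries290 g h hh
  have hdc : Continuous fun t => (Y t).det := (contDiff_det290 hY).continuous
  have hd0 : ∀ t, (Y t).det ≠ 0 := by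
    intro t
    have := (Matrix.GeneralLinearGroup.det (g * h t)).ne_zero
    simpa [hYdef] using this
  by_cases hp : 0 < (Y 0).det
  · have hpos : ∀ t, 0 < (Y t).det := pos_of_pos_zero290 hdc hd0 hp
    -- the integrand
    set G : (Fin (m + 1) → ℝ) → ℂ := fun p =>
      φ (toGLC626 (famMat626 (Y (Fin.tail p)) (p 0))) /
        ((xv626 (rhoM626 (Y (Fin.tail p))) (p 0) : ℝ) : ℂ) with hGdef
    have hnum : ContDiff ℝ ∞
        (fun p : Fin (m + 1) → ℝ => φ (toGLC626 (famMat626 (Y (Fin.tail p)) (p 0)))) := by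
      have := hφ.smooth (m + 1) (fun p => toGLC626 (famMat626 (Y (Fin.tail p)) (p 0)))
        (fun i j => by
          have e : (fun p : Fin (m + 1) → ℝ =>
              ((toGLC626 (famMat626 (Y (Fin.tail p)) (p 0)) : GL (Fin 2) ℂ) :
                Matrix (Fin 2) (Fin 2) ℂ) i j)
              = fun p => famMat626 (Y (Fin.tail p)) (p 0) i j := by
            funext p
            rw [(famAlg626 (Y (Fin.tail p)) (hpos _) (p 0)).2.1]
          rw [e]
          exact hFam m Y hY hpos i j) 1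
      simpa using this
    have hden : ContDiff ℝ ∞
        (fun p : Fin (m + 1) → ℝ => ((xv626 (rhoM626 (Y (Fin.tail p))) (p 0) : ℝ) : ℂ)) :=
      Complex.ofRealCLM.contDiff.comp (contDiff_xv290 hY hpos)
    have hG : ContDiff ℝ ∞ G := by
      have hinv : ContDiff ℝ ∞ (fun p : Fin (m + 1) → ℝ =>
          (((xv626 (rhoM626 (Y (Fin.tail p))) (p 0) : ℝ) : ℂ))⁻¹) := by
        refine hden.inv fun p => ?_
        have h1 := one_le_xv626 (rhoM626 (Y (Fin.tail p))) (p 0) (one_le_rhoM626 _ (hpos _))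
        have : (0 : ℝ) < xv626 (rhoM626 (Y (Fin.tail p))) (p 0) := by linarith
        exact_mod_cast this.ne'
      have := hnum.mul hinv
      simpa only [hGdef, div_eq_mul_inv] using this
    -- the support in `v`
    obtain ⟨R, hR⟩ := exists_rhoC_le290 hφ.supp
    have hsupp : ∃ V : ℝ, ∀ p : Fin (m + 1) → ℝ, V < |p 0| → G p = 0 := by
      refine ⟨Real.sqrt 2 * |R|, fun p hp => ?_⟩
      by_contra hne
      have hφne : φ (toGLC626 (famMat626 (Y (Fin.tail p)) (p 0))) ≠ 0 := by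
        intro h0
        apply hne
        simp only [hGdef, h0, zero_div]
      have hle := hR _ hφne
      rw [(famAlg626 (Y (Fin.tail p)) (hpos _) (p 0)).2.2.1] at hle
      have hρ := one_le_rhoM626 (Y (Fin.tail p)) (hpos _)
      have hx1 := one_le_xv626 (rhoM626 (Y (Fin.tail p))) (p 0) hρ
      have hx2 := xv_sq626 (rhoM626 (Y (Fin.tail p))) (p 0) hρ
      have hR0 : 0 ≤ R := by linarith
      rw [abs_of_nonneg hR0] at hp
      -- `|v|² > 2 R²` and `x_v² ≥ v²/2` contradict `x_v ≤ R`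
      have h2 : Real.sqrt 2 ^ 2 = 2 := Real.sq_sqrt (by norm_num)
      have hs0 : 0 ≤ Real.sqrt 2 * R := by positivity
      have hsq : (Real.sqrt 2 * R) ^ 2 < |p 0| ^ 2 := by
        exact pow_lt_pow_left₀ hp hs0 (by norm_num)
      rw [sq_abs, mul_pow, h2] at hsq
      have hxR : xv626 (rhoM626 (Y (Fin.tail p))) (p 0) ^ 2 ≤ R ^ 2 :=
        pow_le_pow_left₀ (by linarith) hle 2
      nlinarith
    have hint := hPar m G hG hsupp
    have hfun : (fun t => abelF0_626 c φ (g * h t))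
        = fun t => ((Real.sqrt 2 / 4 : ℝ) : ℂ) * c *
            ∫ v : ℝ, G (Fin.cons v t : Fin (m + 1) → ℝ) := by
      funext t
      unfold abelF0_626
      rw [if_pos (hpos t)]
      congr 1
    rw [hfun]
    exact contDiff_const.mul hint
  · have hneg : ∀ t, ¬ 0 < (Y t).det := neg_of_not_pos_zero290 hdc hd0 hp
    have hfun : (fun t => abelF0_626 c φ (g * h t)) = fun _ => (0 : ℂ) := by
      funext t
      unfold abelF0_626
      rw [if_neg (hneg t)]
    rw [hfun]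
    exact contDiff_const

end Fermat.Agent.LT.T6.H290

end
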